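import Fermat.Agent.H63.H1.Interfaces

/-!
# P-H1, row H1-UP (helper46): at most `m ^ (2 g)` Kummer characters of exponent `m`

`kummerUpper (hB : PEBoundStatement) : KummerUpperStatement`.

* Prime exponent `ℓ`: the discrete logarithm with respect to a primitive `ℓ`-th root of unity
  embeds `kummerChars N ℓ` into `peHoms (ZMod ℓ) N`, a vector space of dimension `≤ 2 g` over
  `ZMod ℓ`.
* Dévissage: `χ ↦ χ ^ b` maps `kummerChars N (a * b)` to `kummerChars N a` with kernel inside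
  `kummerChars N b`.
-/

set_option autoImplicit false

open CongruenceSubgroup Module
open scoped MatrixGroups

namespace Fermat.Agent.H46.H1

open Fermat.Agent.H63.H1 Fermat.Agent.H94.EsA

/-! ### Prime exponent -/

section Prime

variable {N : ℕ} {ℓ : ℕ}

lemma char_pow_eq_one_iff {m : ℕ} {χ : Char0 N} :
    χ ^ m = 1 ↔ ∀ γ : ↥(Gamma0 N), χ γ ^ m = 1 := by
  constructor
  · intro h γ
    have := congrArg (fun ψ : Char0 N => ψ γ) h
    simpa only [MonoidHom.pow_apply, MonoidHom.one_apply] using this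
  · intro h
    apply MonoidHom.ext
    intro γ
    rw [MonoidHom.pow_apply, MonoidHom.one_apply]
    exact h γ

lemma kummerChars_apply_pow {m : ℕ} {χ : Char0 N} (hχ : χ ∈ kummerChars N m)
    (γ : ↥(Gamma0 N)) : χ γ ^ m = 1 :=
  char_pow_eq_one_iff.1 hχ.2 γ

/-- The discrete logarithm of a Kummer character of prime exponent. -/
noncomputable def dlogHom [NeZero ℓ] {ζ : ℂˣ} (hζ : IsPrimitiveRoot ζ ℓ) (χ : Char0 N)
    (hχ : χ ∈ kummerChars N ℓ) : Additive ↥(Gamma0 N) →+ ZMod ℓ :=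
  (hζ.zmodEquivZPowers.symm.toAddMonoidHom).comp
    (MonoidHom.toAdditive (χ.codRestrict (Subgroup.zpowers ζ) (fun γ => by
      rw [hζ.zpowers_eq, mem_rootsOfUnity]
      exact kummerChars_apply_pow hχ γ)))

lemma dlogHom_apply [NeZero ℓ] {ζ : ℂˣ} (hζ : IsPrimitiveRoot ζ ℓ) (χ : Char0 N)
    (hχ : χ ∈ kummerChars N ℓ) (γ : ↥(Gamma0 N)) :
    hζ.zmodEquivZPowers (dlogHom hζ χ hχ (Additive.ofMul γ))
      = Additive.ofMul (⟨χ γ, by
          rw [hζ.zpowers_eq, mem_rootsOfUnity]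
          exact kummerChars_apply_pow hχ γ⟩ : Subgroup.zpowers ζ) := by
  unfold dlogHom
  simp only [AddMonoidHom.coe_comp, Function.comp_apply, AddEquiv.coe_toAddMonoidHom,
    AddEquiv.apply_symm_apply]
  rfl

lemma dlogHom_isPEHom [NeZero ℓ] {ζ : ℂˣ} (hζ : IsPrimitiveRoot ζ ℓ) (χ : Char0 N)
    (hχ : χ ∈ kummerChars N ℓ) : IsPEHom (dlogHom hζ χ hχ) := by
  intro γ hγ
  have h1 : χ γ = 1 := hχ.1 γ hγ
  apply hζ.zmodEquivZPowers.injective
  rw [dlogHom_apply, map_zero]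
  apply congrArg Additive.ofMul
  exact Subtype.ext h1

lemma dlogHom_injective [NeZero ℓ] {ζ : ℂˣ} (hζ : IsPrimitiveRoot ζ ℓ) (χ ψ : Char0 N)
    (hχ : χ ∈ kummerChars N ℓ) (hψ : ψ ∈ kummerChars N ℓ)
    (h : dlogHom hζ χ hχ = dlogHom hζ ψ hψ) : χ = ψ := by
  apply MonoidHom.ext
  intro γ
  have h1 := dlogHom_apply hζ χ hχ γ
  have h2 := dlogHom_apply hζ ψ hψ γ
  rw [h, h2] at h1
  have h3 := congrArg Additive.toMul h1
  exact (congrArg Subtype.val h3).symm

/-- **Prime exponent.** -/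
theorem kummerUpper_prime (hB : PEBoundStatement) (N : ℕ) [NeZero N] (ℓ : ℕ) (hℓ : ℓ.Prime) :
    Finite ↥(kummerChars N ℓ) ∧ Nat.card ↥(kummerChars N ℓ) ≤ ℓ ^ (2 * hgenus N) := by
  have _i1 : Fact ℓ.Prime := ⟨hℓ⟩
  have _i2 : NeZero ℓ := ⟨hℓ.ne_zero⟩
  obtain ⟨hfin, hdim⟩ := hB N (ZMod ℓ)
  have hFin : Finite ↥(peHoms (ZMod ℓ) N) := Module.finite_of_finite (ZMod ℓ)
  -- a primitive root of unity in `ℂˣ`
  have hζ0 : IsPrimitiveRoot (Complex.exp (2 * Real.pi * Complex.I / ℓ)) ℓ :=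
    Complex.isPrimitiveRoot_exp ℓ hℓ.ne_zero
  obtain ⟨ζ, hζu⟩ := hζ0.isUnit hℓ.ne_zero
  have hζ : IsPrimitiveRoot ζ ℓ := by
    rw [← IsPrimitiveRoot.coe_units_iff, hζu]
    exact hζ0
  -- the injection
  let ι : ↥(kummerChars N ℓ) → ↥(peHoms (ZMod ℓ) N) := fun χ =>
    ⟨dlogHom hζ χ.1 χ.2, dlogHom_isPEHom hζ χ.1 χ.2⟩
  have hι : Function.Injective ι := by
    intro χ ψ h
    apply Subtype.ext
    exact dlogHom_injective hζ χ.1 ψ.1 χ.2 ψ.2 (congrArg Subtype.val h)
  have hfinK : Finite ↥(kummerChars N ℓ) := Finite.of_injective ι hι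
  refine ⟨hfinK, ?_⟩
  calc Nat.card ↥(kummerChars N ℓ) ≤ Nat.card ↥(peHoms (ZMod ℓ) N) :=
        Nat.card_le_card_of_injective ι hι
    _ = Nat.card (ZMod ℓ) ^ finrank (ZMod ℓ) ↥(peHoms (ZMod ℓ) N) :=
        Module.natCard_eq_pow_finrank
    _ = ℓ ^ finrank (ZMod ℓ) ↥(peHoms (ZMod ℓ) N) := by rw [Nat.card_zmod]
    _ ≤ ℓ ^ (2 * hgenus N) := Nat.pow_le_pow_right hℓ.pos hdim

end Prime

/-! ### Dévissage -/

section Devissage

variable {N : ℕ}

lemma pow_mem_kummerChars {a b : ℕ} {χ : Char0 N} (hχ : χ ∈ kummerChars N (a * b)) :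
    χ ^ b ∈ kummerChars N a := by
  refine ⟨fun γ hγ => ?_, ?_⟩
  · rw [MonoidHom.pow_apply, hχ.1 γ hγ, one_pow]
  · rw [char_pow_eq_one_iff]
    intro γ
    rw [MonoidHom.pow_apply, ← pow_mul, mul_comm b a]
    exact kummerChars_apply_pow hχ γ

/-- The power map `kummerChars N (a * b) → kummerChars N a`, `χ ↦ χ ^ b`. -/
noncomputable def powHom (N a b : ℕ) : ↥(kummerChars N (a * b)) →* ↥(kummerChars N a) where
  toFun χ := ⟨χ.1 ^ b, pow_mem_kummerChars χ.2⟩
  map_one' := Subtype.ext (one_pow b)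
  map_mul' χ ψ := Subtype.ext (mul_pow χ.1 ψ.1 b)

theorem kummerUpper_mul (a b : ℕ) (ha : Finite ↥(kummerChars N a))
    (hb : Finite ↥(kummerChars N b)) :
    Finite ↥(kummerChars N (a * b)) ∧
      Nat.card ↥(kummerChars N (a * b))
        ≤ Nat.card ↥(kummerChars N a) * Nat.card ↥(kummerChars N b) := by
  set f := powHom N a b with hf
  -- the kernel embeds into `kummerChars N b`
  let κ : ↥f.ker → ↥(kummerChars N b) := fun χ =>
    ⟨χ.1.1, χ.1.2.1, by
      have h := χ.2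
      rw [MonoidHom.mem_ker] at h
      exact congrArg Subtype.val h⟩
  have hκ : Function.Injective κ := by
    intro χ ψ h
    have h' : (κ χ).1 = (κ ψ).1 := congrArg Subtype.val h
    exact Subtype.ext (Subtype.ext h')
  have hker : Finite ↥f.ker := Finite.of_injective κ hκ
  have hquot : Finite (↥(kummerChars N (a * b)) ⧸ f.ker) :=
    Finite.of_equiv _ (QuotientGroup.quotientKerEquivRange f).symm.toEquiv
  have hfin : Finite ↥(kummerChars N (a * b)) := Finite.of_subgroup_quotient f.ker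
  refine ⟨hfin, ?_⟩
  rw [Subgroup.card_eq_card_quotient_mul_card_subgroup f.ker]
  apply Nat.mul_le_mul
  · rw [Nat.card_congr (QuotientGroup.quotientKerEquivRange f).toEquiv]
    exact Nat.card_le_card_of_injective (Subtype.val : ↥f.range → ↥(kummerChars N a))
      Subtype.val_injective
  · exact Nat.card_le_card_of_injective κ hκ

end Devissage

/-! ### The theorem -/

/-- **H1-UP.**  `kummerChars N m` is finite with at most `m ^ (2 g)` elements. -/
theorem kummerUpper (hB : PEBoundStatement) : KummerUpperStatement := by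
  intro N _ m
  induction m using Nat.recOnMul with
  | zero => intro h; exact absurd h (lt_irrefl 0)
  | one =>
    intro _
    have hsub : ∀ χ : ↥(kummerChars N 1), χ = 1 := by
      intro χ
      apply Subtype.ext
      apply MonoidHom.ext
      intro γ
      have := kummerChars_apply_pow χ.2 γ
      rw [pow_one] at this
      rw [this]
      rfl
    have hfin : Finite ↥(kummerChars N 1) :=
      Finite.of_injective (fun _ => ()) (fun χ ψ _ => by rw [hsub χ, hsub ψ])
    refine ⟨hfin, ?_⟩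
    rw [one_pow]
    have : Subsingleton ↥(kummerChars N 1) := ⟨fun χ ψ => by rw [hsub χ, hsub ψ]⟩
    exact Finite.card_le_one_iff_subsingleton.2 this
  | prime p hp =>
    intro _
    exact kummerUpper_prime hB N p hp
  | mul a b iha ihb =>
    intro hab
    have ha0 : 0 < a := Nat.pos_of_ne_zero (fun h => by rw [h, zero_mul] at hab; exact lt_irrefl 0 hab)
    have hb0 : 0 < b := Nat.pos_of_ne_zero (fun h => by rw [h, mul_zero] at hab; exact lt_irrefl 0 hab)
    obtain ⟨hfa, hca⟩ := iha ha0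
    obtain ⟨hfb, hcb⟩ := ihb hb0
    obtain ⟨hfin, hc⟩ := kummerUpper_mul a b hfa hfb
    refine ⟨hfin, hc.trans ?_⟩
    rw [mul_pow]
    exact Nat.mul_le_mul hca hcb

end Fermat.Agent.H46.H1
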